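/-
S55 / 22b-OPEN-ADAPT (helper49): the local invariant on the level `H²` of an ARBITRARY OPEN
SUBGROUP `Γ ≤ G_q = Gal(PadicAlgCl q / ℚ_q)`, for the levels pulled back from `G_ℚ` and the
coefficients `Res_Γ (localUnits q)` — the shape consumed by the `J`-side of the global formation
datum (helper64's `JSH2_64.MainOpen.levelsW / unitsW` at `Γ = G_w = Mackey.twSub r V x`).

Ingredients, all landed: Krasner (`Krasner81`, helper81) makes the pull levels cofinal with the
Krull levels (`KummerBr95.LevelEquiv`, helper95), an open subgroup is the fixing subgroup of its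
fixed field, finite over `ℚ_q` (`KummerBr95.exists_fixingSubgroup_eq`), and for a finite `K/ℚ_q`
helper28's `LocInv28.Main.invK` is the invariant on the Krull-level `H²` of `G_K = K.fixingSubgroup`
with coefficients `AK K`, which IS `Res (localUnits q)` by `rfl`.
-/
import Mathlib
import Fermat.Agent.S55.LocInv28.Main
import Fermat.Agent.S55.KummerBr95.Padic
import Fermat.Agent.S55.KummerBr95.GalKummer
import Fermat.Agent.S55.JSH2_64.MainOpen
import Fermat.Agent.S55.PrimaryExt14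
import Fermat.Agent.S55.QZ33

set_option autoImplicit false
set_option linter.unusedSectionVars false
set_option linter.style.haveILetI false

open CategoryTheory groupCohomology IntermediateField

namespace Fermat.Agent.S55.LocSys49.OpenInv

open Fermat.Agent.S55.Profin15 Fermat.Agent.S55.KummerBr95 Fermat.Agent.S55.LocField17
  Fermat.Agent.S55.LocInv28.Padic Fermat.Agent.S55.LocInv28.Main
  Fermat.Agent.S55.QZ33 Fermat.Agent.S55.PrimaryExt14

variable (q : ℕ) [Fact q.Prime]

/-- **Krasner**: the levels of `G_q` pulled back from all finite levels of `G_ℚ` are cofinal with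
the Krull levels (helper95's `pullLevels_equiv`, restated for `q : ℕ`). -/
theorem pullLevels_equiv_gal :
    LevelEquiv (pullLevels (localGaloisToGlobal q)) (galLevels ℚ_[q] (PadicAlgCl q)) := by
  constructor
  · rintro W ⟨U, hU, rfl⟩
    obtain ⟨F, hF, hFU⟩ := isFull_allLevels.2 U hU
    haveI := hF
    obtain ⟨L, hL, hLF⟩ := Krasner81.level_fixing q F
    haveI := hL
    obtain ⟨U', hU', hle⟩ := exists_galLevel_le (K := ℚ_[q]) (Ω := PadicAlgCl q) L
    exact ⟨U', hU', fun τ hτ => hFU (hLF τ (hle hτ))⟩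
  · rintro W ⟨-, L, hL, rfl⟩
    haveI := hL
    obtain ⟨F, hF, hFL⟩ := Krasner81.exists_level q L
    obtain ⟨U, hU, hle⟩ := isFull_allLevels.1 F hF
    exact ⟨U.comap (localGaloisToGlobal q), ⟨U, hU, rfl⟩, fun τ hτ => hFL τ (hle hτ)⟩

variable {q}

/-- the level structure on a subgroup `Γ ≤ G_q` induced from the pull levels
(`= JSH2_64.MainOpen.levelsW` at `Γ = G_w`). -/
noncomputable abbrev levelsΓ (Γ : Subgroup (Gq q)) : LevelStr ↥Γ :=
  (pullLevels (localGaloisToGlobal q)).comap Γ.subtype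

/-- `ℚ̄_qˣ` as a `Γ`-module (`= JSH2_64.MainOpen.unitsW` at `Γ = G_w`). -/
noncomputable abbrev unitsΓ (Γ : Subgroup (Gq q)) : Rep.{0} ℤ ↥Γ :=
  Rep.res Γ.subtype (Idele73.Basic.localUnits q)

/-- `Γ` is open: it contains a pull level. -/
def IsOpenΓ (Γ : Subgroup (Gq q)) : Prop :=
  ∃ W ∈ (pullLevels (localGaloisToGlobal q)).levels, W ≤ Γ

theorem IsOpenΓ.mono {Γ Γ' : Subgroup (Gq q)} (h : IsOpenΓ Γ) (hle : Γ ≤ Γ') : IsOpenΓ Γ' := by
  obtain ⟨W, hW, hWΓ⟩ := h
  exact ⟨W, hW, hWΓ.trans hle⟩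

/-- the fixing subgroup of a finite extension of `ℚ_q` is open. -/
theorem isOpenΓ_fixingSubgroup (K : LF q) [FiniteDimensional ℚ_[q] K] :
    IsOpenΓ K.fixingSubgroup := by
  obtain ⟨U, hU, hle⟩ := exists_galLevel_le (K := ℚ_[q]) (Ω := PadicAlgCl q) K
  obtain ⟨W, hW, hWU⟩ := (pullLevels_equiv_gal q).2 U hU
  exact ⟨W, hW, hWU.trans hle⟩

/-- the field attached to a subgroup. -/
noncomputable abbrev fieldOf (Γ : Subgroup (Gq q)) : LF q := IntermediateField.fixedField Γ

/-- an open subgroup is the fixing subgroup of a finite extension of `ℚ_q`. -/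
theorem exists_field_eq {Γ : Subgroup (Gq q)} (hΓ : IsOpenΓ Γ) :
    ∃ K : LF q, FiniteDimensional ℚ_[q] K ∧ K.fixingSubgroup = Γ := by
  obtain ⟨W, hW, hle⟩ := hΓ
  obtain ⟨U, hU, hUW⟩ := (pullLevels_equiv_gal q).1 W hW
  exact exists_fixingSubgroup_eq Γ ⟨U, hU, hUW.trans hle⟩

theorem fixingSubgroup_fieldOf {Γ : Subgroup (Gq q)} (hΓ : IsOpenΓ Γ) :
    (fieldOf Γ).fixingSubgroup = Γ := by
  obtain ⟨K, -, rfl⟩ := exists_field_eq hΓ
  show (IntermediateField.fixedField K.fixingSubgroup).fixingSubgroup = K.fixingSubgroup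
  rw [InfiniteGalois.fixedField_fixingSubgroup]

theorem finiteDimensional_fieldOf {Γ : Subgroup (Gq q)} (hΓ : IsOpenΓ Γ) :
    FiniteDimensional ℚ_[q] (fieldOf Γ) := by
  obtain ⟨K, hK, rfl⟩ := exists_field_eq hΓ
  show FiniteDimensional ℚ_[q] (IntermediateField.fixedField K.fixingSubgroup)
  rw [InfiniteGalois.fixedField_fixingSubgroup]
  exact hK

theorem fieldOf_fixingSubgroup (K : LF q) : fieldOf K.fixingSubgroup = K :=
  InfiniteGalois.fixedField_fixingSubgroup K

/-! ### the invariant at a field -/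

/-- on `G_K` the pull levels and the Krull levels are cofinal. -/
theorem levelEquiv_fixing (K : LF q) : LevelEquiv (levelsΓ K.fixingSubgroup) (levelsK K) :=
  (pullLevels_equiv_gal q).comap K.fixingSubgroup.subtype

/-- the comparison of the two level cohomologies of `G_K` (identity on cocycles). -/
noncomputable def brEquiv (K : LF q) :
    (levelsΓ K.fixingSubgroup).H2 (unitsΓ K.fixingSubgroup) ≃ₗ[ℤ] (levelsK K).H2 (AK K) :=
  (levelEquiv_fixing K).H2Equiv (AK K)

theorem brEquiv_H2π (K : LF q) (c : ↥((levelsΓ K.fixingSubgroup).Z₂ (unitsΓ K.fixingSubgroup))) :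
    brEquiv K ((levelsΓ K.fixingSubgroup).H2π _ c) =
      (levelsK K).H2π (AK K) ⟨(c : GK K × GK K → AK K),
        (levelEquiv_fixing K).Z₂_eq (AK K) ▸ c.2⟩ := rfl

/-- **the local invariant of `K` on the pull-level `H²` of `G_K`**. -/
noncomputable def invField (K : LF q) [FiniteDimensional ℚ_[q] K] (hP : PresCochain K) :
    (levelsΓ K.fixingSubgroup).H2 (unitsΓ K.fixingSubgroup) ≃+ QZ :=
  (brEquiv K).toAddEquiv.trans (invK K hP)

theorem invField_apply (K : LF q) [FiniteDimensional ℚ_[q] K] (hP : PresCochain K)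
    (x : (levelsΓ K.fixingSubgroup).H2 (unitsΓ K.fixingSubgroup)) :
    invField K hP x = invK K hP (brEquiv K x) := rfl

theorem invField_H2π (K : LF q) [FiniteDimensional ℚ_[q] K] (hP : PresCochain K)
    (c : ↥((levelsΓ K.fixingSubgroup).Z₂ (unitsΓ K.fixingSubgroup))) :
    invField K hP ((levelsΓ K.fixingSubgroup).H2π _ c) =
      invK K hP ((levelsK K).H2π (AK K) ⟨(c : GK K × GK K → AK K),
        (levelEquiv_fixing K).Z₂_eq (AK K) ▸ c.2⟩) := rfl

/-! ### restriction -/

section Res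

variable {K L : LF q} [FiniteDimensional ℚ_[q] K] [FiniteDimensional ℚ_[q] L] (h : K ≤ L)

omit [FiniteDimensional ℚ_[q] K] [FiniteDimensional ℚ_[q] L] in
/-- `G_L → G_K` is continuous for the pull levels. -/
theorem isContinuous_inclΓ :
    LevelStr.IsContinuous (levelsΓ L.fixingSubgroup) (levelsΓ K.fixingSubgroup) (inclG h) := by
  rintro U ⟨V, hV, rfl⟩
  exact ⟨V.comap L.fixingSubgroup.subtype, ⟨V, hV, rfl⟩, fun s hs => hs⟩

omit [FiniteDimensional ℚ_[q] K] [FiniteDimensional ℚ_[q] L] in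
theorem brEquiv_res (x : (levelsΓ K.fixingSubgroup).H2 (unitsΓ K.fixingSubgroup)) :
    brEquiv L ((isContinuous_inclΓ h).res₂ (unitsΓ K.fixingSubgroup) x) =
      (isContinuous_inclG h).res₂ (AK K) (brEquiv K x) := by
  obtain ⟨c, rfl⟩ := Submodule.Quotient.mk_surjective _ x
  rfl

/-- **`inv_L ∘ res = [L : K] • inv_K`** on the pull-level `H²`. -/
theorem invField_res (hK : PresCochain K) (hL : PresCochain L)
    (x : (levelsΓ K.fixingSubgroup).H2 (unitsΓ K.fixingSubgroup)) :
    invField L hL ((isContinuous_inclΓ h).res₂ (unitsΓ K.fixingSubgroup) x) =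
      (ramIdx h * resDeg h) • invField K hK x := by
  rw [invField_apply, brEquiv_res, invK_res h hK hL, invField_apply]

end Res

/-! ### the invariant at an open subgroup -/

/-- transport of the level `H²` along an equality of subgroups. -/
noncomputable def castEquiv {Γ Γ' : Subgroup (Gq q)} (h : Γ' = Γ) :
    (levelsΓ Γ).H2 (unitsΓ Γ) ≃+ (levelsΓ Γ').H2 (unitsΓ Γ') := by
  subst h
  exact AddEquiv.refl _

@[simp] theorem castEquiv_rfl (Γ : Subgroup (Gq q)) (x : (levelsΓ Γ).H2 (unitsΓ Γ)) :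
    castEquiv (rfl : Γ = Γ) x = x := rfl

/-- the hypothesis consumed: helper28's cochain form of `pres` for every finite `K/ℚ_q`
(`= LocDev51.Pres.presCochain` / `LocPres81`). -/
def PresAll (q : ℕ) [Fact q.Prime] : Prop :=
  ∀ (K : LF q) [FiniteDimensional ℚ_[q] K], PresCochain K

/-- **the local invariant of an open subgroup `Γ ≤ G_q`** on
`H²((pullLevels r).comap Γ.subtype; Res_Γ (localUnits q))`. -/
noncomputable def invOpen (hP : PresAll q) (Γ : Subgroup (Gq q)) (hΓ : IsOpenΓ Γ) :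
    (levelsΓ Γ).H2 (unitsΓ Γ) ≃+ QZ :=
  (castEquiv (fixingSubgroup_fieldOf hΓ)).trans
    (@invField q _ (fieldOf Γ) (finiteDimensional_fieldOf hΓ)
      (@hP (fieldOf Γ) (finiteDimensional_fieldOf hΓ)))

private theorem invOpen_aux (K K' : LF q) [FiniteDimensional ℚ_[q] K] [FiniteDimensional ℚ_[q] K']
    (hK : K' = K) (h : K'.fixingSubgroup = K.fixingSubgroup) (hP' : PresCochain K')
    (hP : PresCochain K) :
    (castEquiv h).trans (invField K' hP') = invField K hP := by
  subst hK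
  rfl

/-- at `Γ = G_K` the invariant is `invField K`. -/
theorem invOpen_fixing (hP : PresAll q) (K : LF q) [FiniteDimensional ℚ_[q] K]
    (hΓ : IsOpenΓ K.fixingSubgroup) :
    invOpen hP K.fixingSubgroup hΓ = invField K (hP K) := by
  haveI := finiteDimensional_fieldOf hΓ
  exact invOpen_aux K (fieldOf K.fixingSubgroup) (fieldOf_fixingSubgroup K) _ _ _

/-! ### the consumer forms -/

variable (hP : PresAll q) (Γ : Subgroup (Gq q)) (hΓ : IsOpenΓ Γ)

theorem invOpen_inj (y : (levelsΓ Γ).H2 (unitsΓ Γ)) (h : invOpen hP Γ hΓ y = 0) : y = 0 :=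
  (invOpen hP Γ hΓ).injective (h.trans (map_zero _).symm)

theorem invOpen_surj (p : ℕ) (t : QZ) (n : ℕ) (ht : (p ^ n) • t = 0) :
    ∃ y : (levelsΓ Γ).H2 (unitsΓ Γ), (p ^ n) • y = 0 ∧ invOpen hP Γ hΓ y = t := by
  refine ⟨(invOpen hP Γ hΓ).symm t, ?_, (invOpen hP Γ hΓ).apply_symm_apply t⟩
  apply (invOpen hP Γ hΓ).injective
  rw [map_nsmul, (invOpen hP Γ hΓ).apply_symm_apply, ht, map_zero]

/-- the invariant on the `p`-primary part (helper94's `invp w`). -/
noncomputable def invp (p : ℕ) : primary p ((levelsΓ Γ).H2 (unitsΓ Γ)) →+ QZ :=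
  (invOpen hP Γ hΓ).toAddMonoidHom.comp (primary p ((levelsΓ Γ).H2 (unitsΓ Γ))).subtype

theorem invp_apply (p : ℕ) (y : primary p ((levelsΓ Γ).H2 (unitsΓ Γ))) :
    invp hP Γ hΓ p y = invOpen hP Γ hΓ (y : (levelsΓ Γ).H2 (unitsΓ Γ)) := rfl

/-- (L-inj) -/
theorem invp_inj (p : ℕ) (y : primary p ((levelsΓ Γ).H2 (unitsΓ Γ)))
    (h : invp hP Γ hΓ p y = 0) : y = 0 :=
  Subtype.ext (invOpen_inj hP Γ hΓ _ h)

/-- (L-surj) -/
theorem invp_surj (p : ℕ) (t : QZ) (n : ℕ) (ht : (p ^ n) • t = 0) :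
    ∃ y : primary p ((levelsΓ Γ).H2 (unitsΓ Γ)), (p ^ n) • y = 0 ∧ invp hP Γ hΓ p y = t := by
  obtain ⟨y, hy, hyt⟩ := invOpen_surj hP Γ hΓ p t n ht
  exact ⟨⟨y, mem_primary_of_pow p hy⟩, Subtype.ext hy, hyt⟩

/-! ### the decomposition groups of the places above an open `V ≤ G_ℚ` -/

section Gw

open Fermat.Agent.S55.CD3 Fermat.Agent.S55.JSH2_64.MainOpen Fermat.Agent.S55.Idele73

variable (S : Finset Nat.Primes) (V : Subgroup Idele73.Basic.GQ)
  (hV : IsOpenSub (globalLevels S) V) (x : Idele73.Basic.GQ)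

include hV in
/-- the decomposition group `G_w = twSub r V x` is open. -/
theorem isOpenΓ_Gw : IsOpenΓ (Gw q V x) := by
  obtain ⟨U, hU, hUV⟩ := hV
  haveI := (globalLevels S).normal U hU
  obtain ⟨W, hW, hWU⟩ := isContinuous_pullLevels S (localGaloisToGlobal q) U hU
  refine ⟨W, hW, fun t ht => ?_⟩
  have h1 : localGaloisToGlobal q t ∈ U := hWU ht
  have h2 : x⁻¹ * localGaloisToGlobal q t * x ∈ U := by
    have := (inferInstance : U.Normal).conj_mem _ h1 x⁻¹
    simpa using this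
  exact hUV h2

/-- **helper94's `invp w`** for the place `w = (q, x)` above `V`:
`Br_w = (levelsW q V x).H2 (unitsW q V x)`. -/
noncomputable def invW (p : ℕ) :
    primary p ((levelsW q V x).H2 (unitsW q V x)) →+ QZ :=
  invp hP (Gw q V x) (isOpenΓ_Gw S V hV x) p

theorem invW_inj (p : ℕ) (y : primary p ((levelsW q V x).H2 (unitsW q V x)))
    (h : invW hP S V hV x p y = 0) : y = 0 :=
  invp_inj hP _ _ p y h

theorem invW_surj (p : ℕ) (t : QZ) (n : ℕ) (ht : (p ^ n) • t = 0) :
    ∃ y : primary p ((levelsW q V x).H2 (unitsW q V x)),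
      (p ^ n) • y = 0 ∧ invW hP S V hV x p y = t :=
  invp_surj hP _ _ p t n ht

end Gw

end Fermat.Agent.S55.LocSys49.OpenInv
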