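/-
S55 / 22b-SYS, model-free half (helper49): a `GSys.Sys` (helper37, `CycloRecip37.GSys`) from a
family of invariant maps on the level cohomology of the open subgroups of a profinite group.

`π : Γ →* D` surjective onto a finite quotient (`Γ = G_q`, `D = Gal(E/ℚ_q)`), `A : Rep ℤ Γ`
(`= Ωˣ`), `C : Rep ℤ D` (`= Eˣ`), `ι : C →+ A` equivariant along `π`.  For `H ≤ D` the open
subgroup above `H` is `above π H = H.comap π` (`= G_{K'}`, `K' = E^H`).  Given additive maps
`inv Γ' : (𝒱 Γ').H2 (res A) →+ T` compatible with restriction (`[Γ' : Γ'']`-multiplication) and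
conjugation at the level of cocycles, `openSys` is the system
`S H f = inv (above π H) [inflation of f]`.
-/
import Fermat.Agent.S55.CycloRecip37.GSys
import Fermat.Agent.S55.Profin15.Cohomology

set_option autoImplicit false

open groupCohomology

noncomputable section

namespace Fermat.Agent.S55.LocSys49

open Fermat.Agent.S55.Profin15 Fermat.Agent.S55.CycloRecip37.GSys

variable {Γ D : Type} [Group Γ] [Group D] (π : Γ →* D) (A : Rep.{0, 0, 0} ℤ Γ)
  (C : Rep.{0, 0, 0} ℤ D) (ι : C →+ A)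

/-- the open subgroup of `Γ` above `H ≤ D` -/
abbrev above (H : Subgroup D) : Subgroup Γ := H.comap π

/-- the restriction of `A` to a subgroup -/
abbrev resA (Γ' : Subgroup Γ) : Rep.{0, 0, 0} ℤ ↥Γ' := Rep.res Γ'.subtype A

/-- inflation of a `2`-cochain of `D` to the open subgroup above `H` -/
def inflTo (H : Subgroup D) (f : D × D → C) :
    ↥(above π H) × ↥(above π H) → resA A (above π H) :=
  fun p => ι (f (π p.1, π p.2))

/-- inflation of a `1`-cochain of `D` to the open subgroup above `H` -/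
def inflTo₁ (H : Subgroup D) (c : D → C) : ↥(above π H) → resA A (above π H) :=
  fun g => ι (c (π g))

lemma inflTo_apply (H : Subgroup D) (f : D × D → C) (g h : ↥(above π H)) :
    inflTo π A C ι H f (g, h) = ι (f (π g, π h)) := rfl

lemma inflTo_add (H : Subgroup D) (f f' : D × D → C) :
    inflTo π A C ι H (f + f') = inflTo π A C ι H f + inflTo π A C ι H f' := by
  funext p
  exact map_add ι _ _

lemma inflTo_congr (H : Subgroup D) {f f' : D × D → C}
    (h : ∀ g ∈ H, ∀ a ∈ H, f (g, a) = f' (g, a)) :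
    inflTo π A C ι H f = inflTo π A C ι H f' := by
  funext p
  exact congrArg ι (h _ p.1.2 _ p.2.2)

variable (hι : ∀ g c, ι (C.ρ (π g) c) = A.ρ g (ι c))

include hι in
lemma inflTo_mem_cocycles₂ (H : Subgroup D) {f : D × D → C} (hf : IsCocOn C H f) :
    inflTo π A C ι H f ∈ cocycles₂ (resA A (above π H)) := by
  rw [mem_cocycles₂_def]
  intro g h j
  have h1 := congrArg ι (hf (π g) g.2 (π h) h.2 (π j) j.2)
  simp only [map_sub, map_add, map_zero, hι] at h1
  simpa [inflTo] using h1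

include hι in
lemma d₁₂_inflTo₁ (H : Subgroup D) {f : D × D → C} (c : D → C)
    (hc : ∀ g ∈ H, ∀ a ∈ H, C.ρ g (c a) - c (g * a) + c g = f (g, a)) :
    (d₁₂ (resA A (above π H))).hom (inflTo₁ π A C ι H c) = inflTo π A C ι H f := by
  funext ⟨g, h⟩
  rw [d₁₂_hom_apply]
  have h1 := congrArg ι (hc (π g) g.2 (π h) h.2)
  simp only [map_sub, map_add, hι] at h1
  simpa [inflTo, inflTo₁] using h1

section Level

variable (𝒱 : ∀ Γ' : Subgroup Γ, LevelStr ↥Γ')
  (hopen : ∀ Γ' : Subgroup Γ, π.ker ≤ Γ' → ∃ V ∈ (𝒱 Γ').levels, V ≤ π.ker.subgroupOf Γ')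

lemma ker_le_above (H : Subgroup D) : π.ker ≤ above π H := fun g hg => by
  rw [Subgroup.mem_comap, MonoidHom.mem_ker.1 hg]
  exact H.one_mem

include hopen in
lemma isConst₂_inflTo (H : Subgroup D) (f : D × D → C) :
    (𝒱 (above π H)).IsConst₂ (inflTo π A C ι H f) := by
  obtain ⟨V, hV, hle⟩ := hopen (above π H) (ker_le_above π H)
  refine ⟨V, hV, fun g g' s s' hs hs' => ?_⟩
  have e1 : π ((s : ↥(above π H)) : Γ) = 1 := MonoidHom.mem_ker.1 (Subgroup.mem_subgroupOf.1 (hle hs))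
  have e2 : π ((s' : ↥(above π H)) : Γ) = 1 :=
    MonoidHom.mem_ker.1 (Subgroup.mem_subgroupOf.1 (hle hs'))
  simp only [inflTo, Subgroup.coe_mul, map_mul, e1, e2, mul_one]

include hopen in
lemma isConst₁_inflTo₁ (H : Subgroup D) (c : D → C) :
    (𝒱 (above π H)).IsConst₁ (inflTo₁ π A C ι H c) := by
  obtain ⟨V, hV, hle⟩ := hopen (above π H) (ker_le_above π H)
  refine ⟨V, hV, fun g s hs => ?_⟩
  have e1 : π ((s : ↥(above π H)) : Γ) = 1 := MonoidHom.mem_ker.1 (Subgroup.mem_subgroupOf.1 (hle hs))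
  simp only [inflTo₁, Subgroup.coe_mul, map_mul, e1, mul_one]

include hι hopen in
/-- the inflation of a cocycle on `H` is a level cocycle of the open subgroup above `H` -/
lemma inflTo_mem_Z₂ (H : Subgroup D) {f : D × D → C} (hf : IsCocOn C H f) :
    inflTo π A C ι H f ∈ (𝒱 (above π H)).Z₂ (resA A (above π H)) :=
  ⟨inflTo_mem_cocycles₂ π A C ι hι H hf, isConst₂_inflTo π A C ι 𝒱 hopen H f⟩

include hι hopen in
/-- the inflation of a coboundary on `H` is a level coboundary -/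
lemma inflTo_mem_B₂ (H : Subgroup D) {f : D × D → C} (hf : IsCobOn C H f) :
    inflTo π A C ι H f ∈ (𝒱 (above π H)).B₂ (resA A (above π H)) := by
  obtain ⟨c, hc⟩ := hf
  exact (LevelStr.mem_B₂_iff _ _ _).2
    ⟨inflTo₁ π A C ι H c, isConst₁_inflTo₁ π A C ι 𝒱 hopen H c, d₁₂_inflTo₁ π A C ι hι H c hc⟩

/-! ### the system -/

variable {T : Type*} [AddCommGroup T]
  (inv : ∀ Γ' : Subgroup Γ, (𝒱 Γ').H2 (resA A Γ') →+ T)

open Classical in
/-- the functional of the system: the invariant of the inflation to the open subgroup above `H`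
(`0` on non-cocycles) -/
def openS (H : Subgroup D) (f : D × D → C) : T :=
  if hf : IsCocOn C H f then
    inv (above π H) ((𝒱 (above π H)).H2π _ ⟨inflTo π A C ι H f,
      inflTo_mem_Z₂ π A C ι hι 𝒱 hopen H hf⟩)
  else 0

lemma openS_of_isCocOn (H : Subgroup D) {f : D × D → C} (hf : IsCocOn C H f) :
    openS π A C ι hι 𝒱 hopen inv H f =
      inv (above π H) ((𝒱 (above π H)).H2π _ ⟨inflTo π A C ι H f,
        inflTo_mem_Z₂ π A C ι hι 𝒱 hopen H hf⟩) := dif_pos hf

lemma openS_congr (H : Subgroup D) (f f' : D × D → C)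
    (h : ∀ g ∈ H, ∀ a ∈ H, f (g, a) = f' (g, a)) :
    openS π A C ι hι 𝒱 hopen inv H f = openS π A C ι hι 𝒱 hopen inv H f' := by
  by_cases hf : IsCocOn C H f
  · have hf' : IsCocOn C H f' := hf.congr h
    rw [openS_of_isCocOn _ _ _ _ _ _ _ _ _ hf, openS_of_isCocOn _ _ _ _ _ _ _ _ _ hf']
    congr 2
    exact Subtype.ext (inflTo_congr π A C ι H h)
  · have hf' : ¬ IsCocOn C H f' := fun hc =>
      hf (hc.congr fun g hg a ha => (h g hg a ha).symm)
    unfold openS
    rw [dif_neg hf, dif_neg hf']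

lemma openS_add (H : Subgroup D) (f f' : D × D → C) (hf : IsCocOn C H f)
    (hf' : IsCocOn C H f') :
    openS π A C ι hι 𝒱 hopen inv H (f + f') =
      openS π A C ι hι 𝒱 hopen inv H f + openS π A C ι hι 𝒱 hopen inv H f' := by
  rw [openS_of_isCocOn _ _ _ _ _ _ _ _ _ hf, openS_of_isCocOn _ _ _ _ _ _ _ _ _ hf',
    openS_of_isCocOn _ _ _ _ _ _ _ _ _ (hf.add hf'), ← map_add, ← map_add]
  congr 2
  exact Subtype.ext (inflTo_add π A C ι H f f')

lemma openS_cob (H : Subgroup D) (f : D × D → C) (hf : IsCobOn C H f) :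
    openS π A C ι hι 𝒱 hopen inv H f = 0 := by
  rw [openS_of_isCocOn _ _ _ _ _ _ _ _ _ hf.isCocOn]
  have : (𝒱 (above π H)).H2π (resA A (above π H)) ⟨inflTo π A C ι H f,
      inflTo_mem_Z₂ π A C ι hι 𝒱 hopen H hf.isCocOn⟩ = 0 := by
    rw [LevelStr.H2π_eq_zero_iff]
    exact inflTo_mem_B₂ π A C ι hι 𝒱 hopen H hf
  rw [this, map_zero]

/-- compatibility of the family with restriction, at the level of cocycles
(`inv_{Γ''} ∘ res = [Γ' : Γ''] · inv_{Γ'}`) -/
def ResCompat : Prop :=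
  ∀ (Γ'' Γ' : Subgroup Γ) (hle : Γ'' ≤ Γ'), π.ker ≤ Γ'' →
    ∀ (z : ↥((𝒱 Γ').Z₂ (resA A Γ'))) (z' : ↥((𝒱 Γ'').Z₂ (resA A Γ''))),
      (∀ g h : ↥Γ'', (z' : ↥Γ'' × ↥Γ'' → resA A Γ'') (g, h) =
        (z : ↥Γ' × ↥Γ' → resA A Γ') (Subgroup.inclusion hle g, Subgroup.inclusion hle h)) →
      inv Γ'' ((𝒱 Γ'').H2π _ z') = Γ''.relIndex Γ' • inv Γ' ((𝒱 Γ').H2π _ z)

/-- compatibility of the family with conjugation, at the level of cocycles -/
def ConjCompat : Prop :=
  ∀ (Γ'' Γ' : Subgroup Γ) (σ : Γ) (hσ : ∀ g, g ∈ Γ'' ↔ σ⁻¹ * g * σ ∈ Γ'), π.ker ≤ Γ' →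
    ∀ (z : ↥((𝒱 Γ').Z₂ (resA A Γ'))) (z' : ↥((𝒱 Γ'').Z₂ (resA A Γ''))),
      (∀ g h : ↥Γ'', (z' : ↥Γ'' × ↥Γ'' → resA A Γ'') (g, h) =
        A.ρ σ ((z : ↥Γ' × ↥Γ' → resA A Γ')
          (⟨σ⁻¹ * g * σ, (hσ g).1 g.2⟩, ⟨σ⁻¹ * h * σ, (hσ h).1 h.2⟩))) →
      inv Γ'' ((𝒱 Γ'').H2π _ z') = inv Γ' ((𝒱 Γ').H2π _ z)

variable (hπ : Function.Surjective π)

include hπ in
lemma relIndex_above (H' H : Subgroup D) :
    (above π H').relIndex (above π H) = H'.relIndex H := by
  rw [Subgroup.relIndex_comap, Subgroup.map_comap_eq_self_of_surjective hπ]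

include hπ in
lemma openS_res (hres : ResCompat π A 𝒱 inv) (H' H : Subgroup D) (hle : H' ≤ H)
    (f : D × D → C) (hf : IsCocOn C H f) :
    openS π A C ι hι 𝒱 hopen inv H' f = H'.relIndex H • openS π A C ι hι 𝒱 hopen inv H f := by
  rw [openS_of_isCocOn _ _ _ _ _ _ _ _ _ hf, openS_of_isCocOn _ _ _ _ _ _ _ _ _ (hf.mono hle),
    ← relIndex_above π hπ]
  exact hres (above π H') (above π H) (Subgroup.comap_mono hle) (ker_le_above π H') _ _
    (fun g h => rfl)

include hπ in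
lemma openS_conj (hconj : ConjCompat π A 𝒱 inv) (H' H : Subgroup D) (σ : D)
    (hH : ∀ g, g ∈ H' ↔ σ⁻¹ * g * σ ∈ H) (f : D × D → C) (hf : IsCocOn C H f) :
    openS π A C ι hι 𝒱 hopen inv H' (conjC C σ f) = openS π A C ι hι 𝒱 hopen inv H f := by
  obtain ⟨s, rfl⟩ := hπ σ
  rw [openS_of_isCocOn _ _ _ _ _ _ _ _ _ hf,
    openS_of_isCocOn _ _ _ _ _ _ _ _ _ (hf.conjC hH)]
  have hσ : ∀ g, g ∈ above π H' ↔ s⁻¹ * g * s ∈ above π H := fun g => by
    rw [Subgroup.mem_comap, Subgroup.mem_comap, hH (π g)]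
    simp only [map_mul, map_inv]
  refine hconj (above π H') (above π H) s hσ (ker_le_above π H) _ _ (fun g h => ?_)
  show ι (conjC C (π s) f (π g, π h)) = A.ρ s (ι (f (π (s⁻¹ * g * s), π (s⁻¹ * h * s))))
  rw [conjC_apply, hι]
  simp only [map_mul, map_inv]

/-- **the system of the family `inv`** -/
def openSys (hres : ResCompat π A 𝒱 inv) (hconj : ConjCompat π A 𝒱 inv) : Sys C T where
  S := openS π A C ι hι 𝒱 hopen inv
  congr := openS_congr π A C ι hι 𝒱 hopen inv
  add := openS_add π A C ι hι 𝒱 hopen inv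
  cob := openS_cob π A C ι hι 𝒱 hopen inv
  res H' H hle f hf := openS_res π A C ι hι 𝒱 hopen inv hπ hres H' H hle f hf
  conj H' H σ hH f hf := openS_conj π A C ι hι 𝒱 hopen inv hπ hconj H' H σ hH f hf

lemma openSys_S (hres : ResCompat π A 𝒱 inv) (hconj : ConjCompat π A 𝒱 inv) (H : Subgroup D)
    {f : D × D → C} (hf : IsCocOn C H f) :
    (openSys π A C ι hι 𝒱 hopen inv hπ hres hconj).S H f =
      inv (above π H) ((𝒱 (above π H)).H2π _ ⟨inflTo π A C ι H f,
        inflTo_mem_Z₂ π A C ι hι 𝒱 hopen H hf⟩) :=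
  openS_of_isCocOn π A C ι hι 𝒱 hopen inv H hf

/-! ### carry cocycles -/

section Carry

open Fermat.Agent.S55.GlobalInv91

variable {n : ℕ} [NeZero n]

omit [NeZero n] in
/-- the inflation of a carry cochain is the carry cochain of the inflated character -/
lemma inflTo_carry (H : Subgroup D) (χ : D →* Multiplicative (ZMod n)) (b : C) :
    inflTo π A C ι H (carry C χ b) =
      carry (resA A (above π H)) ((χ.comp π).comp (above π H).subtype) (ι b) := by
  funext ⟨g, h⟩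
  show ι (carryNat n (chiVal χ (π g)) (chiVal χ (π h)) • b) = _
  rw [map_nsmul]
  rfl

/-- the value of the system on a carry cocycle -/
theorem openSys_S_carry (hres : ResCompat π A 𝒱 inv) (hconj : ConjCompat π A 𝒱 inv)
    (H : Subgroup D) (χ : D →* Multiplicative (ZMod n)) (b : C) (hb : ∀ h ∈ H, C.ρ h b = b)
    (hmem : carry (resA A (above π H)) ((χ.comp π).comp (above π H).subtype) (ι b) ∈
      (𝒱 (above π H)).Z₂ (resA A (above π H))) :
    (openSys π A C ι hι 𝒱 hopen inv hπ hres hconj).S H (carry C χ b) =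
      inv (above π H) ((𝒱 (above π H)).H2π _
        ⟨carry (resA A (above π H)) ((χ.comp π).comp (above π H).subtype) (ι b), hmem⟩) := by
  have hf : IsCocOn C H (carry C χ b) := by
    intro g hg a _ l _
    simp only [carry_apply, chiVal_mul, map_nsmul, hb g hg]
    have := carryNat_assoc n (chiVal χ g) (chiVal χ a) (chiVal χ l)
    rw [sub_add_eq_add_sub, sub_sub, sub_eq_zero, ← add_nsmul, ← add_nsmul]
    congr 1
    omega
  rw [openSys_S π A C ι hι 𝒱 hopen inv hπ hres hconj H hf]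
  congr 2
  exact Subtype.ext (inflTo_carry π A C ι H χ b)

end Carry

end Level

end Fermat.Agent.S55.LocSys49
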